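import Fermat.Agent.S25.L.BCIso
import Fermat.Agent.S25.AtlasDefs

/-! # S25 / H5d : Stage B, `GenAtInfty` is an open condition (auxiliary file) -/
set_option autoImplicit false
universe u
open TensorProduct Polynomial

namespace Fermat.Agent.S25
namespace StageB
variable {k : Type u} [Field k] {Γ : CurveAlg k}
variable {A A' : Type u} [CommRing A] [Algebra k A] [CommRing A'] [Algebra k A']

/-- the submodule `R₁ s₁ + y N₁` -/
noncomputable def S (𝒩 : LB Γ A) (s₁ : 𝒩.N₁) : Submodule (Γ.R₁ A) 𝒩.N₁ :=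
  Submodule.span (Γ.R₁ A) {s₁} ⊔ (Ideal.span {Γ.yA A} • ⊤ : Submodule (Γ.R₁ A) 𝒩.N₁)

theorem self_mem_S (𝒩 : LB Γ A) (s₁ : 𝒩.N₁) : s₁ ∈ S 𝒩 s₁ :=
  Submodule.mem_sup_left (Submodule.mem_span_singleton_self _)

theorem yA_smul_mem_S (𝒩 : LB Γ A) (s₁ n : 𝒩.N₁) : Γ.yA A • n ∈ S 𝒩 s₁ :=
  Submodule.mem_sup_right
    (Submodule.smul_mem_smul (Ideal.mem_span_singleton_self _) Submodule.mem_top)

theorem mem_S_iff (𝒩 : LB Γ A) (s₁ n : 𝒩.N₁) :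
    n ∈ S 𝒩 s₁ ↔ ∃ (r : Γ.R₁ A) (n' : 𝒩.N₁), n = r • s₁ + Γ.yA A • n' := by
  constructor
  · intro h
    obtain ⟨u, hu, v, hv, rfl⟩ := Submodule.mem_sup.1 h
    obtain ⟨r, rfl⟩ := Submodule.mem_span_singleton.1 hu
    rw [Submodule.ideal_span_singleton_smul] at hv
    obtain ⟨n', -, rfl⟩ := (Submodule.mem_smul_pointwise_iff_exists _ _ _).1 hv
    exact ⟨r, n', rfl⟩
  · rintro ⟨r, n', rfl⟩
    exact add_mem ((S 𝒩 s₁).smul_mem r (self_mem_S 𝒩 s₁)) (yA_smul_mem_S 𝒩 s₁ n')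

theorem b₁_yA_smul {f : A →ₐ[k] A'} {𝒩 : LB Γ A} {𝒩' : LB Γ A'} (h : LB.BC f 𝒩 𝒩') (n : 𝒩.N₁) :
    h.b₁ (Γ.yA A • n) = Γ.yA A' • h.b₁ n := by
  rw [h.b₁.map_smulₛₗ]
  congr 1
  exact Γ.ρ₁_yA f

/-- the image of `S` under a base change lies in `S`. -/
theorem b₁_mem_S {f : A →ₐ[k] A'} {𝒩 : LB Γ A} {𝒩' : LB Γ A'} (h : LB.BC f 𝒩 𝒩') (s₁ n : 𝒩.N₁)
    (hn : n ∈ S 𝒩 s₁) : h.b₁ n ∈ S 𝒩' (h.b₁ s₁) := by
  obtain ⟨r, n', rfl⟩ := (mem_S_iff 𝒩 s₁ n).1 hn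
  rw [map_add, h.b₁.map_smulₛₗ, b₁_yA_smul]
  exact (mem_S_iff _ _ _).2 ⟨(Γ.ρ₁ f).toRingHom r, h.b₁ n', rfl⟩

theorem smulA₁_def (𝒩 : LB Γ A) (a : A) (n : 𝒩.N₁) :
    a • n = algebraMap A (Γ.R₁ A) a • n := rfl

/-- Step 1 : `N₁ / (R₁ s₁ + y N₁)` is a finite `A`-module. -/
theorem finite_quotient (hΓ : Γ.IsGood) (𝒩 : LB Γ A) (s₁ : 𝒩.N₁) :
    Module.Finite A (𝒩.N₁ ⧸ (S 𝒩 s₁).restrictScalars A) := by
  obtain ⟨t, β, hβ⟩ := CurveAlg.exists_basis_R₁ (A := A) hΓ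
  have hfin : Module.Finite (Γ.R₁ A) 𝒩.N₁ := inferInstance
  obtain ⟨r, g, hg⟩ := Module.Finite.exists_fin (R := Γ.R₁ A) (M := 𝒩.N₁)
  let T : Submodule A 𝒩.N₁ :=
    Submodule.span A (Set.range fun ij : Fin t × Fin r => β ij.1 • g ij.2)
  set SA : Submodule A 𝒩.N₁ := (S 𝒩 s₁).restrictScalars A with hSA
  have h1 : ∀ (z : Γ.R₁ A) (j : Fin r), z • g j ∈ T ⊔ SA := by
    intro z j
    obtain ⟨P, hP, -⟩ := hβ z
    rw [hP, Finset.sum_smul]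
    refine Submodule.sum_mem _ fun i _ => ?_
    have e1 : Polynomial.aeval (Γ.yA A) (P i)
        = algebraMap A (Γ.R₁ A) ((P i).coeff 0) + Γ.yA A * Polynomial.aeval (Γ.yA A) (P i).divX := by
      conv_lhs => rw [← Polynomial.X_mul_divX_add (P i)]
      rw [map_add, map_mul, Polynomial.aeval_X, Polynomial.aeval_C, add_comm]
    rw [e1, add_mul, add_smul, mul_smul, mul_assoc, mul_smul]
    refine add_mem (Submodule.mem_sup_left ?_) (Submodule.mem_sup_right ?_)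
    · rw [← smulA₁_def]
      exact Submodule.smul_mem _ _ (Submodule.subset_span ⟨(i, j), rfl⟩)
    · exact yA_smul_mem_S 𝒩 s₁ _
  have h2 : T ⊔ SA = ⊤ := by
    rw [eq_top_iff]
    intro n _
    have hn : n ∈ Submodule.span (Γ.R₁ A) (Set.range g) := by rw [hg]; trivial
    obtain ⟨c, rfl⟩ := (Submodule.mem_span_range_iff_exists_fun _).1 hn
    exact Submodule.sum_mem _ fun j _ => h1 (c j) j
  have h3 : Submodule.map SA.mkQ T = ⊤ := by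
    have := congrArg (Submodule.map SA.mkQ) h2
    rwa [Submodule.map_sup, Submodule.mkQ_map_self, sup_bot_eq, Submodule.map_top,
      Submodule.range_mkQ] at this
  rw [Module.finite_def, ← h3]
  exact (Submodule.fg_span (Set.finite_range _)).map _

/-- Step 2 : the fibre of the quotient vanishes. -/
theorem subsingleton_tensor {f : A →ₐ[k] A'} [inst : Algebra A A']
    (hf : ∀ a, algebraMap A A' a = f a) {𝒩 : LB Γ A} {𝒩' : LB Γ A'} (h : LB.BC f 𝒩 𝒩')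
    (s₁ : 𝒩.N₁) (hS : S 𝒩' (h.b₁ s₁) = ⊤) :
    Subsingleton (A' ⊗[A] (𝒩.N₁ ⧸ (S 𝒩 s₁).restrictScalars A)) := by
  obtain rfl : inst = f.toRingHom.toAlgebra := Algebra.algebra_ext _ _ hf
  letI := f.toRingHom.toAlgebra
  obtain ⟨e, he⟩ := h.exists_equiv₁
  let π : A' ⊗[A] 𝒩.N₁ →ₗ[A'] A' ⊗[A] (𝒩.N₁ ⧸ (S 𝒩 s₁).restrictScalars A) :=
    ((S 𝒩 s₁).restrictScalars A).mkQ.baseChange A'
  have hπ : Function.Surjective π :=
    LinearMap.lTensor_surjective _ (Submodule.mkQ_surjective _)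
  have hπ0 : ∀ (c : A') (n : 𝒩.N₁), n ∈ S 𝒩 s₁ → π (c ⊗ₜ n) = 0 := by
    intro c n hn
    have : ((S 𝒩 s₁).restrictScalars A).mkQ n = 0 := by
      rw [Submodule.mkQ_apply, Submodule.Quotient.mk_eq_zero]; exact hn
    rw [LinearMap.baseChange_tmul, this, TensorProduct.tmul_zero]
  have h1 : ∀ (r' : Γ.R₁ A') (n : 𝒩.N₁), n ∈ S 𝒩 s₁ → π (e.symm (r' • h.b₁ n)) = 0 := by
    intro r' n hn
    induction r' using TensorProduct.induction_on with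
    | zero => simp
    | tmul c b =>
      have e1 : (c ⊗ₜ[k] b : Γ.R₁ A') • h.b₁ n = e (c ⊗ₜ (((1 : A) ⊗ₜ[k] b : Γ.R₁ A) • n)) := by
        rw [he, h.b₁.map_smulₛₗ, smulA₁_def, smul_smul]
        congr 1
        simp [CurveAlg.ρ₁]
      rw [e1, e.symm_apply_apply, hπ0 _ _ (Submodule.smul_mem _ _ hn)]
    | add x y hx hy => rw [add_smul, map_add, map_add, hx, hy, add_zero]
  have h2 : ∀ t : A' ⊗[A] 𝒩.N₁, π (e.symm (Γ.yA A' • e t)) = 0 := by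
    intro t
    induction t using TensorProduct.induction_on with
    | zero => simp
    | tmul c n =>
      have e1 : Γ.yA A' • e (c ⊗ₜ n) = e (c ⊗ₜ (Γ.yA A • n)) := by
        rw [he, he, b₁_yA_smul, smulA₁_def, smulA₁_def, smul_smul, smul_smul, mul_comm]
      rw [e1, e.symm_apply_apply, hπ0 _ _ (yA_smul_mem_S 𝒩 s₁ n)]
    | add x y hx hy => rw [map_add, smul_add, map_add, map_add, hx, hy, add_zero]
  have h3 : ∀ t : A' ⊗[A] 𝒩.N₁, π t = 0 := by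
    intro t
    have hm : e t ∈ S 𝒩' (h.b₁ s₁) := by rw [hS]; trivial
    obtain ⟨r, n', hrn⟩ := (mem_S_iff _ _ _).1 hm
    have : t = e.symm (r • h.b₁ s₁) + e.symm (Γ.yA A' • e (e.symm n')) := by
      rw [e.apply_symm_apply, ← map_add, ← hrn, e.symm_apply_apply]
    rw [this, map_add, h1 r s₁ (self_mem_S 𝒩 s₁), h2, add_zero]
  refine ⟨fun u v => ?_⟩
  obtain ⟨u', rfl⟩ := hπ u
  obtain ⟨v', rfl⟩ := hπ v
  rw [h3, h3]

/-- Step 3 : Nakayama. -/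
theorem exists_smul_mem (hΓ : Γ.IsGood) (𝒩 : LB Γ A) (s₁ : 𝒩.N₁) (p : PrimeSpectrum A)
    (𝒩p : LB Γ p.asIdeal.ResidueField) (hp : LB.BC (toResidue p) 𝒩 𝒩p)
    (h : S 𝒩p (hp.b₁ s₁) = ⊤) : ∃ a ∉ p.asIdeal, ∀ n : 𝒩.N₁, a • n ∈ S 𝒩 s₁ := by
  have hfin := finite_quotient hΓ 𝒩 s₁
  have hs := subsingleton_tensor (f := toResidue p) (fun a => rfl) hp s₁ h
  have hnot : p ∉ Module.support A (𝒩.N₁ ⧸ (S 𝒩 s₁).restrictScalars A) := by
    rw [Module.mem_support_iff_nontrivial_residueField_tensorProduct]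
    exact not_nontrivial_iff_subsingleton.2 hs
  rw [Module.mem_support_iff_of_finite, SetLike.not_le_iff_exists] at hnot
  obtain ⟨a, ha, hap⟩ := hnot
  refine ⟨a, hap, fun n => ?_⟩
  have h1 := Module.mem_annihilator.1 ha (Submodule.Quotient.mk n)
  rw [← Submodule.Quotient.mk_smul, Submodule.Quotient.mk_eq_zero] at h1
  exact h1

/-- Step 4 : after inverting `a`. -/
theorem S_eq_top_of_away (𝒩 : LB Γ A) (s₁ : 𝒩.N₁) (a : A) (ha : ∀ n : 𝒩.N₁, a • n ∈ S 𝒩 s₁)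
    (𝒩a : LB Γ (Localization.Away a)) (h : LB.BC (toAway a) 𝒩 𝒩a) : S 𝒩a (h.b₁ s₁) = ⊤ := by
  rw [eq_top_iff, ← h.span₁, Submodule.span_le]
  rintro _ ⟨n, rfl⟩
  have h1 := b₁_mem_S h s₁ _ (ha n)
  have h2 : h.b₁ n = algebraMap (Localization.Away a) (Γ.R₁ (Localization.Away a))
      (IsLocalization.Away.invSelf a) • h.b₁ (a • n) := by
    rw [smulA₁_def, h.b₁.map_smulₛₗ, smul_smul]
    have e1 : (Γ.ρ₁ (toAway (k := k) a)).toRingHom (algebraMap A (Γ.R₁ A) a)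
        = algebraMap (Localization.Away a) (Γ.R₁ (Localization.Away a))
          (algebraMap A (Localization.Away a) a) := by
      simp [CurveAlg.ρ₁, Algebra.TensorProduct.algebraMap_apply]
    rw [e1, ← map_mul, mul_comm, IsLocalization.Away.mul_invSelf, map_one, one_smul]
  rw [SetLike.mem_coe, h2]
  exact Submodule.smul_mem _ _ h1

/-- **Stage B**, unfolded form. -/
theorem main (hΓ : Γ.IsGood) (𝒩 : LB Γ A) (s₁ : 𝒩.N₁) (p : PrimeSpectrum A)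
    (𝒩p : LB Γ p.asIdeal.ResidueField) (hp : LB.BC (toResidue p) 𝒩 𝒩p)
    (h : Submodule.span (Γ.R₁ p.asIdeal.ResidueField) {hp.b₁ s₁} ⊔
      (Ideal.span {Γ.yA p.asIdeal.ResidueField} • ⊤ :
        Submodule (Γ.R₁ p.asIdeal.ResidueField) 𝒩p.N₁) = ⊤) :
    ∃ (a : A) (_ : a ∉ p.asIdeal), ∀ (𝒩a : LB Γ (Localization.Away a))
      (ha : LB.BC (toAway a) 𝒩 𝒩a),
      Submodule.span (Γ.R₁ (Localization.Away a)) {ha.b₁ s₁} ⊔
        (Ideal.span {Γ.yA (Localization.Away a)} • ⊤ :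
          Submodule (Γ.R₁ (Localization.Away a)) 𝒩a.N₁) = ⊤ := by
  obtain ⟨a, hap, ha⟩ := exists_smul_mem hΓ 𝒩 s₁ p 𝒩p hp h
  exact ⟨a, hap, fun 𝒩a h' => S_eq_top_of_away 𝒩 s₁ a ha 𝒩a h'⟩

end StageB
end Fermat.Agent.S25
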